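import Fermat.Agent.S31.H838.SSGlue
import Fermat.Agent.S31.H22.Final

/-!
# Row S31 — everything except S30 (helper838)

* `petersonData N : H22.PeterssonData N` — the analytic core of piece SS in row-lead helper22's
  interface (`B` = Petersson product `H622.petC`).
* `ssStatement : H22.SSStatement`.
* `result_of_S30` : the frozen statement S31 from the single remaining input `S30Statement`.
-/

set_option autoImplicit false

open UpperHalfPlane CongruenceSubgroup MeasureTheory
open scoped MatrixGroups ModularForm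

namespace Fermat.Agent.S31.H838

open Fermat.Agent.S31 Fermat.Agent.S31.H622

/-- The Petersson product as a biadditive map. -/
noncomputable def petAdd (N : ℕ) [NeZero N] :
    CuspForm (Gamma0 N) 2 →+ CuspForm (Gamma0 N) 2 →+ ℂ :=
  AddMonoidHom.mk' (fun f => AddMonoidHom.mk' (fun g => petC N f g) (petC_add_right N f))
    (fun f₁ f₂ => by
      ext g
      exact petC_add_left N f₁ f₂ g)

/-- The analytic core of piece SS, in the interface `H22.PeterssonData`. -/
noncomputable def petersonData (N : ℕ) [NeZero N] : H22.PeterssonData N where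
  B := petAdd N
  definite f h := eq_zero_of_petC_self_eq_zero N f h
  symm_T ℓ hℓ hℓN f g := isPetSymm_heckeTLin N ℓ hℓ hℓN f g

theorem ssStatement : H22.SSStatement :=
  fun N _ S hNS => heckeAlgebra_isReduced N S hNS

section

variable {p : ℕ} {N : ℕ} [NeZero N] {S : Finset ℕ}
  {𝒪 : Type} [CommRing 𝒪] [IsDomain 𝒪] [IsDiscreteValuationRing 𝒪]
  [IsAdicComplete (IsLocalRing.maximalIdeal 𝒪) 𝒪]
  {θ : CuspForm.heckeAlgebra N 2 (↑S : Set ℕ) →+* IsLocalRing.ResidueField 𝒪}
  {T : Type} [CommRing T] [IsLocalRing T] [IsNoetherianRing T]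
  [IsAdicComplete (IsLocalRing.maximalIdeal T) T] [Algebra 𝒪 T] [IsLocalHom (algebraMap 𝒪 T)]
  [Module.Finite 𝒪 T] [Module.Free 𝒪 T]

/-- **S31 from S30 alone.**  The frozen statement S31, with the frozen statement S30 as the only
hypothesis. -/
theorem result_of_S30 (h30 : S30Statement) (hp : p.Prime)
    (hp𝒪 : (p : 𝒪) ∈ IsLocalRing.maximalIdeal 𝒪) (hpS : p ∈ S)
    (hNS : ∀ q : ℕ, q.Prime → q ∣ N → q ∈ S)
    (H : CuspForm.HeckeGaloisRepDatum N (↑S : Set ℕ) 𝒪 θ T)
    (q : ℕ) (hq : q.Prime) (hqS : q ∉ S) :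
    H.ρ.IsUnramifiedAt q :=
  H22.result_of_S30_SS h30 ssStatement hp hp𝒪 hpS hNS H q hq hqS

end

end Fermat.Agent.S31.H838
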