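import Fermat.Agent.Lib.Pet695.Hecke
import Fermat.Agent.S31.H622.Alg

/-!
# Row S31, piece SS — glue (helper838)

`heckeAlgebra_isReduced` (= `Skeleton.heckeAlgebra_isReduced` verbatim) obtained by combining

* helper695's function-level adjointness `Lib.Pet695.pet_heckeT_adjoint` (valid for every partition
  function of `Γ₀(N)`), and
* helper622's partition function `chiH`, Petersson product `petC` (positive definite) and
  `isReduced_of_selfAdjoint`.
-/

set_option autoImplicit false
set_option linter.unusedSectionVars false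

open UpperHalfPlane CongruenceSubgroup MeasureTheory
open scoped MatrixGroups ModularForm

namespace Fermat.Agent.S31.H838

open Fermat.Agent.Lib.Pet695 Fermat.Agent.S31.H622

variable (N : ℕ) [NeZero N]

theorem aGL_smul_eq (γ : Gamma0 N) (τ : ℍ) : aGL N γ • τ = (γ : SL(2, ℤ)) • τ := rfl

theorem isPartFn_chiH : IsPartFn (aGL N) (chiH N) where
  meas := measurable_chiH N
  nonneg := chiH_nonneg N
  hasSum τ := by
    simpa only [aGL_smul_eq] using hasSum_chiH N τ
  integrable := integrable_chiH N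

theorem isAdm_cuspForm (f : CuspForm (Gamma0 N) 2) : IsAdm 2 (f : ℍ → ℂ) where
  cont := ModularFormClass.continuous f
  bdd := by
    obtain ⟨C, -, hC⟩ := exists_petersson_self_bound N f
    exact ⟨C, hC⟩

theorem slash_aGL_eq (f : CuspForm (Gamma0 N) 2) (γ : Gamma0 N) :
    (f : ℍ → ℂ) ∣[(2 : ℤ)] aGL N γ = f :=
  SlashInvariantFormClass.slash_action_eq f _ ⟨(γ : SL(2, ℤ)), γ.2, rfl⟩

theorem petC_eq_pet (f g : CuspForm (Gamma0 N) 2) :
    petC N f g = pet 2 (chiH N) (f : ℍ → ℂ) (g : ℍ → ℂ) := by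
  unfold petC pet
  refine integral_congr_ae (Filter.Eventually.of_forall fun τ => ?_)
  simp only [mul_comm]

/-- `T_ℓ` (`ℓ ∤ N`) is symmetric for the Petersson product. -/
theorem isPetSymm_heckeTLin (ℓ : ℕ) (hℓ : ℓ.Prime) (hℓN : ¬ ℓ ∣ N) :
    IsPetSymm N (CuspForm.heckeTLin 2 hℓ hℓN) := by
  intro f g
  rw [petC_eq_pet, petC_eq_pet, CuspForm.coe_heckeTLin_apply, CuspForm.coe_heckeTLin_apply]
  exact pet_heckeT_adjoint hℓ hℓN (isPartFn_chiH N) (isAdm_cuspForm N f) (isAdm_cuspForm N g)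
    (slash_aGL_eq N f) (slash_aGL_eq N g)

/-- **SS**.  The anemic Hecke algebra of weight 2 and level `N` is reduced. -/
theorem heckeAlgebra_isReduced (N : ℕ) [NeZero N] (S : Set ℕ)
    (hNS : ∀ q : ℕ, q.Prime → q ∣ N → q ∈ S) : IsReduced (CuspForm.heckeAlgebra N 2 S) :=
  isReduced_of_selfAdjoint N S hNS (isPetSymm_heckeTLin N)

end Fermat.Agent.S31.H838
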